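/-
C1 nodal core, instantiation, block K6 (helper23): vanishing of the Cech `H¹` after a twist.
(Verbatim copy, in the namespace `K6`, of the four lemmas of helper201's `S34/Nodal/Torsion.lean` which
are used by `K6/Basic.lean`, so that the closure of S34/S35 contains complete files only.)
Mathlib only.
-/
import Mathlib

set_option autoImplicit false

namespace Fermat.Agent.S34.Nodal.Inst.K6

/-- `I` is generated over `A[x]` by the finite set `S`. -/
def SpanPow {A F : Type*} [CommRing A] [Field F] [Algebra A F] (x : F) (S : Finset F)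
    (I : Submodule A F) : Prop :=
  (∀ g ∈ S, g ∈ I) ∧ ∀ y ∈ I, y ∈ Submodule.span A {z : F | ∃ g ∈ S, ∃ a : ℕ, z = x ^ a * g}

/-- Stability of `I1` under powers of `x`. -/
theorem torsion_pow_mul_mem {A F : Type*} [CommRing A] [Field F] [Algebra A F] (x : F)
    (I : Submodule A F) (hxI : ∀ y ∈ I, x * y ∈ I) (n : ℕ) : ∀ y ∈ I, x ^ n * y ∈ I := by
  induction n with
  | zero => intro y hy; simpa using hy
  | succ n ih =>
    intro y hy
    have := hxI _ (ih y hy)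
    rwa [← mul_assoc, ← pow_succ'] at this

/-- The common core of the Cech computations: a submodule containing `I1` and all the
`x⁻¹ ^ j * g` contains `I12`. -/
theorem torsion_le_of_forall {A F : Type*} [CommRing A] [Field F] [Algebra A F] (x : F)
    (hx : x ≠ 0) (I1 I12 T : Submodule A F)
    (hx1 : ∀ y ∈ I1, x * y ∈ I1)
    (hloc : ∀ y ∈ I12, ∃ m : ℕ, x ^ m * y ∈ I1)
    (S : Finset F) (hS : SpanPow x S I1) (h1 : I1 ≤ T)
    (hT : ∀ g ∈ S, ∀ j : ℕ, x⁻¹ ^ j * g ∈ T) : I12 ≤ T := by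
  have key : ∀ m : ℕ, ∀ z ∈ Submodule.span A {z : F | ∃ g ∈ S, ∃ a : ℕ, z = x ^ a * g},
      x⁻¹ ^ m * z ∈ T := by
    intro m z hz
    induction hz using Submodule.span_induction with
    | mem z hz =>
      obtain ⟨g, hg, a, rfl⟩ := hz
      rcases le_total m a with h | h
      · have e : x⁻¹ ^ m * (x ^ a * g) = x ^ (a - m) * g := by
          obtain ⟨d, rfl⟩ := Nat.exists_eq_add_of_le h
          rw [Nat.add_sub_cancel_left, pow_add, inv_pow]
          field_simp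
        rw [e]
        exact h1 (torsion_pow_mul_mem x I1 hx1 _ g (hS.1 g hg))
      · have e : x⁻¹ ^ m * (x ^ a * g) = x⁻¹ ^ (m - a) * g := by
          obtain ⟨d, rfl⟩ := Nat.exists_eq_add_of_le h
          rw [Nat.add_sub_cancel_left, pow_add, inv_pow, inv_pow]
          field_simp
        rw [e]
        exact hT g hg _
    | zero => simp
    | add u v _ _ hu hv => rw [mul_add]; exact T.add_mem hu hv
    | smul r u _ hu => rw [mul_smul_comm]; exact T.smul_mem r hu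
  intro y hy
  obtain ⟨m, hm⟩ := hloc y hy
  have := key m _ (hS.2 _ hm)
  rwa [← mul_assoc, ← mul_pow, inv_mul_cancel₀ hx, one_pow, one_mul] at this

/-- A uniform exponent `c` with `x⁻¹ ^ j * g ∈ I2` for all `j ≥ c`, `g ∈ S`. -/
theorem torsion_exists_uniform {A F : Type*} [CommRing A] [Field F] [Algebra A F] (x : F)
    (I2 : Submodule A F) (hx2 : ∀ y ∈ I2, x⁻¹ * y ∈ I2)
    (S : Finset F) (hS2 : ∀ g ∈ S, ∃ c : ℕ, x⁻¹ ^ c * g ∈ I2) :
    ∃ c : ℕ, ∀ g ∈ S, ∀ j : ℕ, c ≤ j → x⁻¹ ^ j * g ∈ I2 := by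
  classical
  choose! cg hcg using hS2
  refine ⟨S.sup cg, fun g hg j hj => ?_⟩
  have hle : cg g ≤ j := le_trans (Finset.le_sup hg) hj
  obtain ⟨d, rfl⟩ := Nat.exists_eq_add_of_le hle
  have := torsion_pow_mul_mem x⁻¹ I2 hx2 d _ (hcg g hg)
  rwa [← mul_assoc, ← pow_add, add_comm] at this

/-- Vanishing of `H¹` after a twist: `I12 = I1 + x ^ c * I2`. -/
theorem exists_twist_vanishing {A F : Type*} [CommRing A] [Field F] [Algebra A F] (x : F)
    (hx : x ≠ 0) (I1 I2 I12 : Submodule A F)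
    (hx1 : ∀ y ∈ I1, x * y ∈ I1) (hx2 : ∀ y ∈ I2, x⁻¹ * y ∈ I2)
    (hloc : ∀ y ∈ I12, ∃ m : ℕ, x ^ m * y ∈ I1)
    (S : Finset F) (hS : SpanPow x S I1) (hS2 : ∀ g ∈ S, ∃ c : ℕ, x⁻¹ ^ c * g ∈ I2) :
    ∃ c : ℕ, ∀ z ∈ I12, ∃ z1 ∈ I1, ∃ z2 ∈ I2, z = z1 + x ^ c * z2 := by
  obtain ⟨c, hc⟩ := torsion_exists_uniform x I2 hx2 S hS2
  refine ⟨c, fun z hz => ?_⟩
  have hle : I12 ≤ I1 ⊔ Submodule.map (LinearMap.mulLeft A (x ^ c)) I2 := by
    refine torsion_le_of_forall x hx I1 I12 _ hx1 hloc S hS le_sup_left (fun g hg j => ?_)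
    refine Submodule.mem_sup_right (Submodule.mem_map.2
      ⟨x⁻¹ ^ (c + j) * g, hc g hg _ (Nat.le_add_right c j), ?_⟩)
    rw [LinearMap.mulLeft_apply, pow_add, inv_pow, inv_pow]
    field_simp
  obtain ⟨z1, h1, w, hw, rfl⟩ := Submodule.mem_sup.1 (hle hz)
  obtain ⟨z2, h2, rfl⟩ := Submodule.mem_map.1 hw
  exact ⟨z1, h1, z2, h2, by rw [LinearMap.mulLeft_apply]⟩

end Fermat.Agent.S34.Nodal.Inst.K6
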