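/-
C1 nodal core, instantiation, block K6 (helper23): the field `hH1` of `Contracts`, parametric part.

For ANY `(K, A, F, w, x)`:
* `exists_isIntegral_pow_mul` : clearing denominators in an integral equation;
* `exhaust_gen`               : the field `exhaust` (only `x ≠ 0`, `x⁻¹ ∈ OO` are used);
* `exists_pow_mul_mem_chart`  : `z ∈ chartMid x` ⟹ `x ^ m * z ∈ chart x`;
* `hH1_of_fin`                : the field `hH1` from the finite generation of `chart x` over `A[x]`.
-/
import Fermat.Agent.S34.Nodal.Inst.Assembly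
import Fermat.Agent.S34.Nodal.Inst.K6.Twist

set_option autoImplicit false

noncomputable section

namespace Fermat.Agent.S34.Nodal.Inst.K6

open ModularCurve Fermat.Agent.S18.Vert Polynomial

section Field

variable {K F : Type*} [Field K] [Field F] [Algebra K F]

theorem isIntegral_of_monic_of_coeff_mem (R : Subalgebra K F) (P : F[X]) (hP : P.Monic)
    (hc : ∀ i, P.coeff i ∈ R) {y : F} (hy : P.eval y = 0) : IsIntegral R y := by
  have hl : P ∈ Polynomial.lifts (algebraMap R F) := by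
    rw [Polynomial.lifts_iff_coeff_lifts]
    intro i
    exact ⟨⟨_, hc i⟩, rfl⟩
  obtain ⟨q, hq, -, hqm⟩ := Polynomial.lifts_and_natDegree_eq_and_monic hl hP
  exact ⟨q, hqm, by rw [← Polynomial.eval_map, hq, hy]⟩

/-- Clearing denominators: if every element of `R'` is multiplied into `R` by the large powers of
`s`, then every element integral over `R'` is multiplied by the large powers of `s` into an element
integral over `R`. -/
theorem exists_isIntegral_pow_mul (R R' : Subalgebra K F) (s : F)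
    (hs : ∀ c ∈ R', ∃ m : ℕ, ∀ m', m ≤ m' → s ^ m' * c ∈ R) {z : F} (hz : IsIntegral R' z) :
    ∃ m : ℕ, ∀ m', m ≤ m' → IsIntegral R (s ^ m' * z) := by
  obtain ⟨p, hp, hpz⟩ := hz
  set P : F[X] := p.map (algebraMap R' F) with hPdef
  have hP : P.Monic := hp.map _
  have hPz : P.eval z = 0 := by rw [hPdef, Polynomial.eval_map]; exact hpz
  have hcoeff : ∀ i, P.coeff i ∈ R' := fun i => by
    rw [hPdef, Polynomial.coeff_map]
    exact (p.coeff i).2
  choose mm hmm using fun i => hs (P.coeff i) (hcoeff i)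
  refine ⟨(Finset.range (P.natDegree + 1)).sup mm, fun m' hm' => ?_⟩
  refine isIntegral_of_monic_of_coeff_mem R (P.scaleRoots (s ^ m'))
    ((Polynomial.monic_scaleRoots_iff _).2 hP) (fun i => ?_) ?_
  · rw [Polynomial.coeff_scaleRoots]
    rcases lt_trichotomy i P.natDegree with hi | hi | hi
    · rw [← pow_mul, mul_comm]
      refine hmm i _ ?_
      have h1 : mm i ≤ m' :=
        le_trans (Finset.le_sup (f := mm) (Finset.mem_range.2 (by omega))) hm'
      have h2 : 1 ≤ P.natDegree - i := by omega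
      calc mm i ≤ m' := h1
        _ = m' * 1 := (mul_one _).symm
        _ ≤ m' * (P.natDegree - i) := Nat.mul_le_mul_left _ h2
    · rw [hi, Nat.sub_self, pow_zero, mul_one, hP.coeff_natDegree]
      exact R.one_mem
    · rw [Polynomial.coeff_eq_zero_of_natDegree_lt hi, zero_mul]
      exact R.zero_mem
  · have := Polynomial.scaleRoots_eval₂_eq_zero (p := P) (RingHom.id F) (r := z) (s := s ^ m')
      (by rw [Polynomial.eval₂_id]; exact hPz)
    rwa [Polynomial.eval₂_id, RingHom.id_apply] at this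

/-- `x⁻¹ ^ m * c ∈ K[x⁻¹]` for `c ∈ K[x]`, `m ≫ 0`. -/
theorem exists_inv_pow_mul_mem {x : F} (hx : x ≠ 0) (c : F) (hc : c ∈ Algebra.adjoin K {x}) :
    ∃ m : ℕ, ∀ m', m ≤ m' → x⁻¹ ^ m' * c ∈ Algebra.adjoin K {x⁻¹} := by
  rw [Algebra.adjoin_singleton_eq_range_aeval] at hc
  obtain ⟨p, rfl⟩ := hc
  refine ⟨p.natDegree, fun m hm => ?_⟩
  show x⁻¹ ^ m * aeval x p ∈ _
  rw [aeval_eq_sum_range' (Nat.lt_succ_of_le hm), Finset.mul_sum]
  refine Subalgebra.sum_mem _ fun i hi => ?_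
  have hi' : i ≤ m := Nat.lt_succ_iff.mp (Finset.mem_range.mp hi)
  have e : x⁻¹ ^ m * (p.coeff i • x ^ i) = p.coeff i • x⁻¹ ^ (m - i) := by
    obtain ⟨d, rfl⟩ := Nat.exists_eq_add_of_le hi'
    rw [Nat.add_sub_cancel_left, mul_smul_comm, pow_add, inv_pow, inv_pow]
    congr 1
    field_simp
  rw [e]
  exact Subalgebra.smul_mem _ (Subalgebra.pow_mem _ (Algebra.self_mem_adjoin_singleton K _) _) _

/-- `x ^ m * c ∈ K[x]` for `c ∈ K[x, x⁻¹]`, `m ≫ 0`. -/
theorem exists_pow_mul_mem {x : F} (hx : x ≠ 0) (c : F) (hc : c ∈ Algebra.adjoin K {x, x⁻¹}) :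
    ∃ m : ℕ, ∀ m', m ≤ m' → x ^ m' * c ∈ Algebra.adjoin K {x} := by
  have hxm : ∀ k : ℕ, x ^ k ∈ Algebra.adjoin K {x} := fun k =>
    Subalgebra.pow_mem _ (Algebra.self_mem_adjoin_singleton K _) _
  induction hc using Algebra.adjoin_induction with
  | mem y hy =>
    rcases hy with rfl | hy
    · exact ⟨0, fun m' _ => Subalgebra.mul_mem _ (hxm m') (Algebra.self_mem_adjoin_singleton K _)⟩
    · rw [Set.mem_singleton_iff] at hy
      subst hy
      refine ⟨1, fun m' hm' => ?_⟩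
      obtain ⟨d, rfl⟩ := Nat.exists_eq_add_of_le hm'
      rw [add_comm, pow_succ, mul_assoc, mul_inv_cancel₀ hx, mul_one]
      exact hxm d
  | algebraMap r => exact ⟨0, fun m' _ => Subalgebra.mul_mem _ (hxm m') (Subalgebra.algebraMap_mem _ r)⟩
  | add a b _ _ ha hb =>
    obtain ⟨m1, h1⟩ := ha
    obtain ⟨m2, h2⟩ := hb
    refine ⟨max m1 m2, fun m' hm' => ?_⟩
    rw [mul_add]
    exact Subalgebra.add_mem _ (h1 m' (le_trans (le_max_left _ _) hm'))
      (h2 m' (le_trans (le_max_right _ _) hm'))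
  | mul a b _ _ ha hb =>
    obtain ⟨m1, h1⟩ := ha
    obtain ⟨m2, h2⟩ := hb
    refine ⟨m1 + m2, fun m' hm' => ?_⟩
    obtain ⟨d, rfl⟩ := Nat.exists_eq_add_of_le hm'
    have e : x ^ (m1 + m2 + d) * (a * b) = (x ^ m1 * a) * (x ^ (m2 + d) * b) := by
      rw [add_assoc, pow_add]; ring
    rw [e]
    exact Subalgebra.mul_mem _ (h1 m1 le_rfl) (h2 _ (Nat.le_add_right _ _))

end Field

variable {K : Type*} [Field K] {A : ValuationSubring K}
variable {F : IntermediateField K (LaurentSeries K)} {w : F ≃ₐ[K] F}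

/-- **The field `exhaust`**, in general. -/
theorem exhaust_gen {x : F} (hx : x ≠ 0) (hxinv : x⁻¹ ∈ OO A F w) :
    ∀ b ∈ chart A F w x, ∃ e : ℕ, x⁻¹ ^ e * b ∈ chart A F w x⁻¹ := by
  intro b hb
  obtain ⟨m, hm⟩ := exists_isIntegral_pow_mul (Algebra.adjoin K {x⁻¹}) (Algebra.adjoin K {x}) x⁻¹
    (exists_inv_pow_mul_mem hx) hb.2
  exact ⟨m, (OO A F w).mul_mem ((OO A F w).pow_mem hxinv m) hb.1, hm m le_rfl⟩

/-- `chartMid x = ⋃ x⁻¹ ^ m * chart x`. -/
theorem exists_pow_mul_mem_chart {x : F} (hx : x ≠ 0) (hxO : x ∈ OO A F w) :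
    ∀ z ∈ chartMid A F w x, ∃ m : ℕ, x ^ m * z ∈ chart A F w x := by
  intro z hz
  obtain ⟨m, hm⟩ := exists_isIntegral_pow_mul (Algebra.adjoin K {x}) (Algebra.adjoin K {x, x⁻¹}) x
    (exists_pow_mul_mem hx) hz.2
  exact ⟨m, (OO A F w).mul_mem ((OO A F w).pow_mem hxO m) hz.1, hm m le_rfl⟩

/-- A subring of `F` containing the constants of `A`, as an `A`-submodule. -/
def toSub (B : Subring F) (hB : ∀ a : A, algebraMap K F (a : K) ∈ B) : Submodule A F where
  carrier := B
  add_mem' := B.add_mem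
  zero_mem' := B.zero_mem
  smul_mem' a y hy := by
    have e : a • y = algebraMap K F (a : K) * y := by
      rw [Algebra.smul_def]; rfl
    rw [e]
    exact B.mul_mem (hB a) hy

theorem const_mem_chartMid (x : F) (a : A) : algebraMap K F (a : K) ∈ chartMid A F w x :=
  chart_le_chartMid x (const_mem_chart x a)

/-- **The field `hH1`** from the finite generation of the first chart over `A[x]`. -/
theorem hH1_of_fin {x : F} (hx : x ≠ 0) (hxO : x ∈ OO A F w) (hxinv : x⁻¹ ∈ OO A F w)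
    (hfin : ∃ S : Finset F, (∀ g ∈ S, g ∈ chart A F w x) ∧ ∀ b ∈ chart A F w x,
      b ∈ Submodule.span A {y : F | ∃ g ∈ S, ∃ a : ℕ, y = x ^ a * g}) :
    ∃ c : ℕ, ∀ z ∈ chartMid A F w x, ∃ z1 ∈ chart A F w x, ∃ z2 ∈ chart A F w x⁻¹,
      z = z1 + x ^ c * z2 := by
  obtain ⟨S, hS1, hS2⟩ := hfin
  exact exists_twist_vanishing (A := A) x hx (toSub (chart A F w x) (const_mem_chart x))
    (toSub (chart A F w x⁻¹) (const_mem_chart x⁻¹)) (toSub (chartMid A F w x) (const_mem_chartMid x))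
    (fun y hy => (chart A F w x).mul_mem ⟨hxO, isIntegral_self x⟩ hy)
    (fun y hy => (chart A F w x⁻¹).mul_mem ⟨hxinv, isIntegral_self x⁻¹⟩ hy)
    (exists_pow_mul_mem_chart hx hxO) S ⟨hS1, hS2⟩
    (fun g hg => exhaust_gen hx hxinv g (hS1 g hg))

end Fermat.Agent.S34.Nodal.Inst.K6

end
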