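/-
C1 nodal core, instantiation, block K6 (helper23): the field `hH1` over a discrete valuation ring,
from a complete pair of vertical valuation rings (language of `BAD/LevelQ`; the data are those of
helper237's `II.HasG4`, i.e. `LQ.isMVert`, `LQ.isMCoord`, `LQ.V_one` and `IsGauss` for `V 0`).

* `chart_eq`   : `Inst.chart B L w₀ x₀` and `S18.chart B.toSubring x₀` have the same elements;
* `fin_of_two` : `Inst.chart B L w₀ x₀` is generated over `B` by the `x₀ ^ a * g`, `g ∈ S` finite;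
* `hH1_of_two` : the field `hH1` for `(K₀, B, L, w₀, x₀)`.
-/
import Fermat.Agent.S34.Nodal.Inst.K6.Basic
import Fermat.Agent.S34.Nodal.Inst.II.Fin
import Fermat.Agent.S34.Nodal.Inst.G.Good.Gauss

set_option autoImplicit false

noncomputable section

namespace Fermat.Agent.S34.Nodal.Inst.K6

open ModularCurve Fermat.Agent.S18 Fermat.Agent.S18.Vert Fermat.Agent.BAD IntermediateField

variable {K₀ : Type*} [Field K₀] {B : ValuationSubring K₀} {ϖ₀ : K₀}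
variable {L : IntermediateField K₀ (LaurentSeries K₀)} {w₀ : L ≃ₐ[K₀] L}
variable {V : Fin 2 → ValuationSubring L} {x₀ : L}

theorem mem_OO_iff (h₀ : IsUnif B ϖ₀) (hN : Gauss.HasNf B ϖ₀ L) (hG : IsGauss B ϖ₀ L (V 0))
    (hV1 : ∀ y, y ∈ V 1 ↔ w₀ y ∈ V 0) (y : L) : y ∈ OO B L w₀ ↔ ∀ c, y ∈ V c := by
  rw [mem_OO, mem_gaussSubring_iff_mem h₀ hN hG, mem_gaussSubring_iff_mem h₀ hN hG, ← hV1]
  constructor
  · rintro ⟨h0, h1⟩ c
    fin_cases c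
    · exact h0
    · exact h1
  · intro h
    exact ⟨h 0, h 1⟩

/-- The two notions of chart agree. -/
theorem chart_eq (hN : Gauss.HasNf B ϖ₀ L) (hG : IsGauss B ϖ₀ L (V 0))
    (hV1 : ∀ y, y ∈ V 1 ↔ w₀ y ∈ V 0) (hV : LevelQ.IsMVert B ϖ₀ V K₀⟮x₀⟯)
    (hc : ∀ c, LevelQ.IsMCoord B (V c) x₀) (y : L) :
    y ∈ chart B L w₀ x₀ ↔ y ∈ S18.chart B.toSubring x₀ := by
  rw [LevelQ.mem_chart_iff hV hc, mem_chart, mem_OO_iff hV.unif₀ hN hG hV1,
    II.isIntegral_adjoin_iff]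

/-- Finite generation of the first chart. -/
theorem fin_of_two [CharZero K₀] (hN : Gauss.HasNf B ϖ₀ L) (hG : IsGauss B ϖ₀ L (V 0))
    (hV1 : ∀ y, y ∈ V 1 ↔ w₀ y ∈ V 0) (hV : LevelQ.IsMVert B ϖ₀ V K₀⟮x₀⟯)
    (hc : ∀ c, LevelQ.IsMCoord B (V c) x₀) :
    ∃ S : Finset L, (∀ g ∈ S, g ∈ chart B L w₀ x₀) ∧ ∀ b ∈ chart B L w₀ x₀,
      b ∈ Submodule.span B {y : L | ∃ g ∈ S, ∃ a : ℕ, y = x₀ ^ a * g} := by
  have hx₀ : Transcendental K₀ x₀ :=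
    LevelQ.MemAux.transcendental hV.unif₀ (hc 0) (hV.const_mem 0)
  have := hV.finite
  obtain ⟨S, hS1, hS2⟩ := LevelQ.chart_fin hV.unif₀ hx₀
  refine ⟨S, fun g hg => (chart_eq hN hG hV1 hV hc g).2 (hS1 g hg), fun b hb => ?_⟩
  have h := hS2 b ((chart_eq hN hG hV1 hV hc b).1 hb)
  clear hb
  induction h using Submodule.span_induction with
  | mem y hy =>
    obtain ⟨a, e, he, rfl⟩ := hy
    exact Submodule.subset_span ⟨e, he, a, rfl⟩
  | zero => exact Submodule.zero_mem _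
  | add a b _ _ ha hb => exact Submodule.add_mem _ ha hb
  | smul r z _ hz =>
    obtain ⟨r, c, hc', rfl⟩ := r
    exact Submodule.smul_mem _ (⟨c, hc'⟩ : B) hz

/-- **The field `hH1` over a discrete valuation ring.** -/
theorem hH1_of_two [CharZero K₀] (hN : Gauss.HasNf B ϖ₀ L) (hG : IsGauss B ϖ₀ L (V 0))
    (hV1 : ∀ y, y ∈ V 1 ↔ w₀ y ∈ V 0) (hV : LevelQ.IsMVert B ϖ₀ V K₀⟮x₀⟯)
    (hc : ∀ c, LevelQ.IsMCoord B (V c) x₀) (hinv : ∀ c, x₀⁻¹ ∈ V c) :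
    ∃ c : ℕ, ∀ z ∈ chartMid B L w₀ x₀, ∃ z1 ∈ chart B L w₀ x₀, ∃ z2 ∈ chart B L w₀ x₀⁻¹,
      z = z1 + x₀ ^ c * z2 := by
  have hx₀ : Transcendental K₀ x₀ :=
    LevelQ.MemAux.transcendental hV.unif₀ (hc 0) (hV.const_mem 0)
  have hne : x₀ ≠ 0 := by
    rintro rfl
    exact hx₀ (isAlgebraic_zero)
  exact hH1_of_fin hne ((mem_OO_iff hV.unif₀ hN hG hV1 x₀).2 fun c => (hc c).mem)
    ((mem_OO_iff hV.unif₀ hN hG hV1 x₀⁻¹).2 hinv) (fin_of_two hN hG hV1 hV hc)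

end Fermat.Agent.S34.Nodal.Inst.K6

end
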