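/-
C1 nodal core, instantiation, block K6 (helper23): the field `hH1` over a discrete valuation ring
from helper39's hub `BAD.LevelQ.LQ` (+ `IsGauss` for `V 0`).
-/
import Fermat.Agent.S34.Nodal.Inst.K6.Two
import Fermat.Agent.BAD.LevelQ.Hub.Basic

set_option autoImplicit false

noncomputable section

namespace Fermat.Agent.S34.Nodal.Inst.K6

open ModularCurve Fermat.Agent.S18 Fermat.Agent.S18.Vert Fermat.Agent.BAD Fermat.Agent.BAD.LevelQ
  IntermediateField

variable {K₀ : Type*} [Field K₀] [CharZero K₀] {B : ValuationSubring K₀} {ϖ₀ : K₀} {q : ℕ}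
variable {L' L : IntermediateField K₀ (LaurentSeries K₀)} {al be : L' →ₐ[K₀] L} {w₀ : L ≃ₐ[K₀] L}
variable {γ : L' →+* L'} {Ow' : ValuationSubring L'} {V : Fin 2 → ValuationSubring L} {x' : L'}

/-- **The field `hH1` over a discrete valuation ring, from the hub.** -/
theorem hH1_of_LQ (H : LQ B ϖ₀ q al be w₀ γ Ow' V x') (hN : Gauss.HasNf B ϖ₀ L)
    (hG : IsGauss B ϖ₀ L (V 0)) :
    ∃ c : ℕ, ∀ z ∈ chartMid B L w₀ (al x' * be x'), ∃ z1 ∈ chart B L w₀ (al x' * be x'),
      ∃ z2 ∈ chart B L w₀ (al x' * be x')⁻¹, z = z1 + (al x' * be x') ^ c * z2 :=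
  hH1_of_two hN hG H.V_one H.isMVert H.isMCoord fun c => (H.isMCoord c).inv.mem

end Fermat.Agent.S34.Nodal.Inst.K6

end
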