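/-
C1 nodal core, instantiation, block K6 (helper23): THE FIELD `hH1` at `ℚ̄` level, from the hub `LQ` at
the inertia field (`K₀ = InertiaField.K0 A`, `A₀ = InertiaField.A0 A`, uniformiser `q`).
-/
import Fermat.Agent.S34.Nodal.Inst.K6.FromLQ
import Fermat.Agent.S34.Nodal.Inst.Ur.Decomp
import Fermat.Agent.S34.Nodal.Inst.G.Hyp
import Fermat.Agent.S34.Nodal.Inst.G.Mod.Defs
import Fermat.Agent.S34.Nodal.Inst.II.FromLQ
import Fermat.Agent.S18.Export.IsChartBase

set_option autoImplicit false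

noncomputable section

namespace Fermat.Agent.S34.Nodal.Inst.K6

open ModularCurve Fermat.Agent.S18 Fermat.Agent.S18.Vert Fermat.Agent.S18.Descent Fermat.Agent.S24
  Fermat.Agent.BAD Fermat.Agent.BAD.LevelQ Fermat.Agent.Lib Fermat.Agent.Lib.UrBase IntermediateField

variable {M q : ℕ} [NeZero M] [NeZero q]

/-- **The field `hH1`** at `ℚ̄` level, from an instance of the hub at the inertia field. -/
theorem hH1_FN_of_LQ (hq : q.Prime) (A : ValuationSubring Kbar) (hA : A.LiesOverPrime q)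
    {w : FN (M * q) ≃ₐ[Kbar] FN (M * q)} (hw : IsAL M q w) (D : BaseData M q)
    {w₀ : FK (InertiaField.K0 A) (M * q) ≃ₐ[InertiaField.K0 A] FK (InertiaField.K0 A) (M * q)}
    {γ : FK (InertiaField.K0 A) M →+* FK (InertiaField.K0 A) M}
    {Ow' : ValuationSubring (FK (InertiaField.K0 A) M)}
    {V : Fin 2 → ValuationSubring (FK (InertiaField.K0 A) (M * q))}
    (H : LQ (InertiaField.A0 A) (q : InertiaField.K0 A) q
      (heckeAlphaBar (InertiaField.K0 A) M q) (heckeBetaBar (InertiaField.K0 A) M q) w₀ γ Ow' V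
      (D.xK (InertiaField.K0 A)))
    (hG : IsGauss (InertiaField.A0 A) (q : InertiaField.K0 A) (FK (InertiaField.K0 A) (M * q)) (V 0)) :
    ∃ c : ℕ, ∀ z ∈ chartMid A (modularFunctionFieldBar (M * q)) w (xx (D.xK Kbar)),
      ∃ z1 ∈ chart A (modularFunctionFieldBar (M * q)) w (xx (D.xK Kbar)),
      ∃ z2 ∈ chart A (modularFunctionFieldBar (M * q)) w (xx (D.xK Kbar))⁻¹,
        z = z1 + xx (D.xK Kbar) ^ c * z2 := by
  have h₀ := BAD.Bridge.isUnif_A0 A q hq hA
  haveI : CharZero (InertiaField.K0 A) := algebraRat.charZero _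
  have key0 := hH1_of_LQ H (Gauss.hasNf_FK h₀ (M * q)) hG
  have hww : ∀ z, w (toBar (modularFunctionFieldFull (M * q)) (InertiaField.K0 A) z) =
      toBar (modularFunctionFieldFull (M * q)) (InertiaField.K0 A) (w₀ z) := fun z =>
    (II.bc_w (K₀ := InertiaField.K0 A) (K := Kbar) hq w hw.al hw.be w₀ H.w_al H.w_be z).symm
  have key := Ur.hH1_of (hyp_inertia hq A hA (M * q) M) hww _ key0
  have e : toBar (modularFunctionFieldFull (M * q)) (InertiaField.K0 A)
      (heckeAlphaBar (InertiaField.K0 A) M q (D.xK (InertiaField.K0 A)) *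
        heckeBetaBar (InertiaField.K0 A) M q (D.xK (InertiaField.K0 A))) = xx (D.xK Kbar) := by
    rw [map_mul]
    have e1 := II.bc_al (K₀ := InertiaField.K0 A) (K := Kbar) M q (D.xK (InertiaField.K0 A))
    have e2 := II.bc_be (K₀ := InertiaField.K0 A) (K := Kbar) M q (D.xK (InertiaField.K0 A))
    have e3 : II.bc (II.compat_FK (InertiaField.K0 A) Kbar M) (D.xK (InertiaField.K0 A)) =
        D.xK Kbar := Export.baseChangeMap_xK D _
    rw [e3] at e1 e2
    exact congrArg₂ (· * ·) e1 e2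
  rw [e] at key
  exact key

end Fermat.Agent.S34.Nodal.Inst.K6

end
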