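/-
C1 nodal core, instantiation, block K6 (helper23): THE FIELD `hH1` at `ℚ̄` level, unconditionally
(up to `BeInt D`: `x'(q z)` is integral over `ℚ̄[x'(z)]`, block ORD).
-/
import Fermat.Agent.S34.Nodal.Inst.K6.Bar
import Fermat.Agent.BAD.LevelQ.Mod.Main
import Fermat.Agent.BAD.LevelQ.Mod.Frob

set_option autoImplicit false

noncomputable section

namespace Fermat.Agent.S34.Nodal.Inst.K6

open ModularCurve Fermat.Agent.S18 Fermat.Agent.S18.Vert Fermat.Agent.S18.Descent Fermat.Agent.S24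
  Fermat.Agent.BAD Fermat.Agent.BAD.LevelQ Fermat.Agent.Lib Fermat.Agent.Lib.UrBase IntermediateField

variable {M q : ℕ} [NeZero M] [NeZero q]

/-- **The field `hH1`.** -/
theorem hH1_FN (hq : q.Prime) (hqM : ¬ q ∣ M) (A : ValuationSubring Kbar) (hA : A.LiesOverPrime q)
    {w : FN (M * q) ≃ₐ[Kbar] FN (M * q)} (hw : IsAL M q w) (D : BaseData M q) (hD : Mod.BeInt D) :
    ∃ c : ℕ, ∀ z ∈ chartMid A (modularFunctionFieldBar (M * q)) w (xx (D.xK Kbar)),
      ∃ z1 ∈ chart A (modularFunctionFieldBar (M * q)) w (xx (D.xK Kbar)),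
      ∃ z2 ∈ chart A (modularFunctionFieldBar (M * q)) w (xx (D.xK Kbar))⁻¹,
        z = z1 + xx (D.xK Kbar) ^ c * z2 := by
  have h₀ := BAD.Bridge.isUnif_A0 A q hq hA
  obtain ⟨γ₀, hγ⟩ := Mod.exists_isFrobInv_K0 A hq hA
  have hchar : (InertiaField.A0 A).valuation ((q : ℕ) : InertiaField.K0 A) < 1 := by
    rw [← ValuationSubring.mem_nonunits_iff]
    exact InertiaField.natCast_mem_nonunits_A0 A q hA
  obtain ⟨w₀, Ow', V, H, -, hG⟩ := Mod.exists_LQ h₀ hq hqM hchar hγ D hD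
  exact hH1_FN_of_LQ hq A hA hw D H hG

end Fermat.Agent.S34.Nodal.Inst.K6

end
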